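import Fermat.Agent.DR.Interface
import Fermat.Agent.S32.Defs

/-!
# Project S33 (ordinarity at `p ∥ N`): the contracts between the blocks

* `augG I C = (I - 1) C` for a `G_ℚ`-module.
* `FOStatement`   : output of block FO (finite flat group schemes over an unramified base, `p` odd: an `I`-stable subgroup of
  `(I - 1) Q` has no nonzero quotient with trivial action).
* `KVNewOrd M p`  : output of the geometric blocks HECKEP + VAL + COVER + GALP : on the `p`-new part of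
  `(I - 1) J₀(M p)[p^k]` inertia at `p` acts through the cyclotomic character.
* `OrdLevel D K P` : what GLUE delivers to the algebra at the finite level `K`.
-/

set_option autoImplicit false

namespace Fermat.Agent.S33

open Fermat.Agent.GAL Fermat.Agent.S24 Fermat.Agent.S32 Fermat.Agent.DR
open Fermat.Agent.S19 (IsFunFlat)

/-- `(I - 1) C`. -/
def augG (I : Subgroup GQ) {X : Type*} [AddCommGroup X] [DistribMulAction GQ X] (C : AddSubgroup X) :
    AddSubgroup X :=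
  AddSubgroup.closure {y | ∃ τ ∈ I, ∃ x ∈ C, y = τ • x - x}

/-- **Contract of block FO.** -/
def FOStatement : Prop :=
  ∀ (p : ℕ) [Fact p.Prime], p ≠ 2 → ∀ (Q : Type) [AddCommGroup Q] [DistribMulAction GQ Q],
    IsFunFlat p Q → ∀ P : ValuationSubring (AlgebraicClosure ℚ), P.LiesOverPrime p →
      ∀ C : AddSubgroup Q, (∀ τ ∈ P.inertiaSubgroupIn ℚ, ∀ x ∈ C, τ • x ∈ C) →
        C ≤ augG (P.inertiaSubgroupIn ℚ) ⊤ → C ≤ augG (P.inertiaSubgroupIn ℚ) C

/-- **Contract of the geometric blocks** (level `M p`, `p ∤ M`, notation of `DR/Interface.lean`). -/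
def KVNewOrd (M p : ℕ) [NeZero M] [NeZero p] : Prop :=
  ∀ (k : ℕ) (P : ValuationSubring (AlgebraicClosure ℚ)), P.LiesOverPrime p →
    ∀ x : KV Kbar (FN (M * p)) (p ^ k),
      alphaKV M p (p ^ k) x = 0 → alphaKV M p (p ^ k) (wKV M p (p ^ k) x) = 0 →
      x ∈ augG (P.inertiaSubgroupIn ℚ) (⊤ : AddSubgroup (KV Kbar (FN (M * p)) (p ^ k))) →
      ∀ τ ∈ P.inertiaSubgroupIn ℚ, ∀ a : ℕ,
        (∀ μ : AlgebraicClosure ℚ, μ ^ p ^ k = 1 → τ μ = μ ^ a) → τ • x = a • x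

/-- The geometric contract at all neat levels. -/
def KVNewOrdNeat : Prop :=
  ∀ (M p : ℕ) [NeZero M] [NeZero p], p.Prime → p ≠ 2 → ¬ p ∣ M → 4 ∣ M → KVNewOrd M p

/-- **What the algebra needs at the finite level `K`.** -/
def OrdLevel {N M p : ℕ} [NeZero N] [Fact p.Prime] (D : ESDatumAt N M p) (K : ℕ)
    (P : ValuationSubring (AlgebraicClosure ℚ)) : Prop :=
  ∃ (Q : Type) (_ : AddCommGroup Q) (_ : DistribMulAction GQ Q) (φ : ModRep D.ρ K →+ Q),
    Finite Q ∧ (∀ y : Q, p ^ K • y = 0) ∧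
    IsFunFlat p Q ∧ (∀ (σ : GQ) (x : ModRep D.ρ K), φ (σ • x) = σ • φ x) ∧
    (∀ (ℓ : ℕ) (x : Fin D.r → ZMod (p ^ K)), φ (ModRep.of D.ρ K x) = 0 →
      φ (ModRep.of D.ρ K (((D.T ℓ).map (Int.castRingHom (ZMod (p ^ K)))).mulVec x)) = 0) ∧
    (∀ x : ModRep D.ρ K, φ x = 0 →
      x ∈ augG (P.inertiaSubgroupIn ℚ) (⊤ : AddSubgroup (ModRep D.ρ K)) →
      ∀ τ ∈ P.inertiaSubgroupIn ℚ, ∀ a : ℕ,
        (∀ μ : AlgebraicClosure ℚ, μ ^ p ^ K = 1 → τ μ = μ ^ a) → τ • x = a • x)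

end Fermat.Agent.S33
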